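/-
Programme MW (S17), block PAIR (helper4): **the abstract pairing calculus** (Néron/Faltings–Hriljac
with global Weil functions), pure algebra.

`Pt` a set of points, divisors `Pt →₀ ℤ`, `lam : Pt → Pt → ℝ` a symmetric global function
(`lam x y = h_Δ(x,y)` for `x ≠ y`, adjunction value on the diagonal), `Prin` a subgroup of divisors of
coefficient sum `0` (principal divisors).

* `cdeg`, `size`, `ev lam a y = Σ_z a z * lam z y`, `pair lam a b = Σ_w b w * ev lam a w`,
  `q lam a = - pair lam a a`;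
* `UD lam Prin` : the global uniform decomposition theorem with adjunction:
  `∀ d, ∃ C, ∀ u ∈ Prin, size u ≤ d → ∃ c, ∀ y, |ev lam u y + c| ≤ C`;
* `pair_prin_bound`, `q_congr` (class invariance of `q` on bounded representatives = (P2) for
  `Q(E) = 2n<P0,E> - <E,E>`), `quasiPar_reps`;
* **`exists_qhat`** : for a surjection `π : D0 →+ J` with kernel `Prin` and bounded representatives,
  a function `qhat : J → ℝ` with the quasi-parallelogram law (`Descent4.QuasiPar`) and
  `qhat (π a) = q lam a + O(1)` on representatives of bounded size.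
-/
import Mathlib
import Fermat.Agent.MW.DESC.Descent4

set_option autoImplicit false
set_option linter.unusedSectionVars false

namespace Fermat.Agent.MW.PAIR.Pairing4

open Fermat.Agent.MW.DESC.Descent4

variable {Pt : Type*}

/-! ### Degree and size -/

/-- The coefficient sum of a divisor. -/
noncomputable def cdeg : (Pt →₀ ℤ) →+ ℤ := Finsupp.liftAddHom fun _ => AddMonoidHom.id ℤ

theorem cdeg_apply (a : Pt →₀ ℤ) : cdeg a = a.sum fun _ m => m := by
  rw [cdeg, Finsupp.liftAddHom_apply]
  rfl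

@[simp] theorem cdeg_single (z : Pt) (m : ℤ) : cdeg (Finsupp.single z m) = m := by
  simp [cdeg]

/-- The `ℓ¹`-size of a divisor. -/
noncomputable def size (a : Pt →₀ ℤ) : ℕ := a.sum fun _ m => m.natAbs

theorem size_eq_sum (a : Pt →₀ ℤ) (s : Finset Pt) (hs : a.support ⊆ s) :
    size a = ∑ z ∈ s, (a z).natAbs :=
  Finsupp.sum_of_support_subset a hs _ (fun _ _ => by simp)

@[simp] theorem size_zero : size (0 : Pt →₀ ℤ) = 0 := by simp [size]

@[simp] theorem size_neg (a : Pt →₀ ℤ) : size (-a) = size a := by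
  classical
  rw [size_eq_sum (-a) a.support (by rw [Finsupp.support_neg]), size_eq_sum a a.support subset_rfl]
  exact Finset.sum_congr rfl fun z _ => by rw [Finsupp.neg_apply, Int.natAbs_neg]

theorem size_add_le (a b : Pt →₀ ℤ) : size (a + b) ≤ size a + size b := by
  classical
  rw [size_eq_sum (a + b) (a.support ∪ b.support) Finsupp.support_add,
    size_eq_sum a (a.support ∪ b.support) Finset.subset_union_left,
    size_eq_sum b (a.support ∪ b.support) Finset.subset_union_right, ← Finset.sum_add_distrib]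
  exact Finset.sum_le_sum fun z _ => by rw [Finsupp.add_apply]; exact Int.natAbs_add_le _ _

theorem size_sub_le (a b : Pt →₀ ℤ) : size (a - b) ≤ size a + size b := by
  rw [sub_eq_add_neg]
  exact (size_add_le a (-b)).trans (by rw [size_neg])

/-! ### Evaluation and pairing -/

/-- `ev lam a y = Σ_z a z * lam z y`. -/
noncomputable def ev (lam : Pt → Pt → ℝ) (a : Pt →₀ ℤ) (y : Pt) : ℝ :=
  Finsupp.linearCombination ℤ (fun z => lam z y) a

variable (lam : Pt → Pt → ℝ)

theorem ev_eq_sum (a : Pt →₀ ℤ) (y : Pt) : ev lam a y = a.sum fun z m => (m : ℝ) * lam z y := by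
  rw [ev, Finsupp.linearCombination_apply]
  exact Finsupp.sum_congr fun z _ => zsmul_eq_mul _ _

@[simp] theorem ev_zero (y : Pt) : ev lam 0 y = 0 := by simp [ev]

theorem ev_add (a b : Pt →₀ ℤ) (y : Pt) : ev lam (a + b) y = ev lam a y + ev lam b y := by
  simp [ev]

theorem ev_neg (a : Pt →₀ ℤ) (y : Pt) : ev lam (-a) y = -ev lam a y := by
  simp [ev]

theorem ev_sub (a b : Pt →₀ ℤ) (y : Pt) : ev lam (a - b) y = ev lam a y - ev lam b y := by
  simp [ev]

@[simp] theorem ev_single (z : Pt) (m : ℤ) (y : Pt) :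
    ev lam (Finsupp.single z m) y = (m : ℝ) * lam z y := by
  simp [ev, zsmul_eq_mul]

/-- `pair lam a b = Σ_w b w * ev lam a w = Σ_{z,w} a z * b w * lam z w`. -/
noncomputable def pair (a b : Pt →₀ ℤ) : ℝ :=
  Finsupp.linearCombination ℤ (fun w => ev lam a w) b

theorem pair_eq_sum (a b : Pt →₀ ℤ) : pair lam a b = b.sum fun w k => (k : ℝ) * ev lam a w := by
  rw [pair, Finsupp.linearCombination_apply]
  exact Finsupp.sum_congr fun z _ => zsmul_eq_mul _ _

@[simp] theorem pair_zero_right (a : Pt →₀ ℤ) : pair lam a 0 = 0 := by simp [pair]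

theorem pair_add_right (a b b' : Pt →₀ ℤ) : pair lam a (b + b') = pair lam a b + pair lam a b' := by
  simp [pair]

theorem pair_neg_right (a b : Pt →₀ ℤ) : pair lam a (-b) = -pair lam a b := by
  simp [pair]

theorem pair_sub_right (a b b' : Pt →₀ ℤ) : pair lam a (b - b') = pair lam a b - pair lam a b' := by
  simp [pair]

@[simp] theorem pair_single_right (a : Pt →₀ ℤ) (w : Pt) (k : ℤ) :
    pair lam a (Finsupp.single w k) = (k : ℝ) * ev lam a w := by
  simp [pair, zsmul_eq_mul]

theorem pair_add_left (a a' b : Pt →₀ ℤ) : pair lam (a + a') b = pair lam a b + pair lam a' b := by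
  simp only [pair_eq_sum, ev_add, mul_add]
  exact Finsupp.sum_add

@[simp] theorem pair_zero_left (b : Pt →₀ ℤ) : pair lam 0 b = 0 := by
  simp [pair_eq_sum]

theorem pair_neg_left (a b : Pt →₀ ℤ) : pair lam (-a) b = -pair lam a b := by
  have h := pair_add_left lam a (-a) b
  rw [add_neg_cancel, pair_zero_left] at h
  linarith

theorem pair_sub_left (a a' b : Pt →₀ ℤ) : pair lam (a - a') b = pair lam a b - pair lam a' b := by
  rw [sub_eq_add_neg, pair_add_left, pair_neg_left, sub_eq_add_neg]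

variable {lam}

theorem pair_comm (hsymm : ∀ x y, lam x y = lam y x) (a b : Pt →₀ ℤ) :
    pair lam a b = pair lam b a := by
  induction a using Finsupp.induction_linear with
  | zero => simp
  | add a a' ha ha' => rw [pair_add_left, pair_add_right, ha, ha']
  | single z m =>
    induction b using Finsupp.induction_linear with
    | zero => simp
    | add b b' hb hb' => rw [pair_add_left, pair_add_right, hb, hb']
    | single w k =>
      rw [pair_single_right, pair_single_right, ev_single, ev_single, hsymm z w]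
      ring

theorem pair_single_single (z w : Pt) (m k : ℤ) :
    pair lam (Finsupp.single z m) (Finsupp.single w k) = (m : ℝ) * k * lam z w := by
  rw [pair_single_right, ev_single]
  ring

variable (lam)

/-! ### Effective divisors given by families of points -/

theorem ev_finset_sum {ι : Type*} (s : Finset ι) (f : ι → Pt →₀ ℤ) (y : Pt) :
    ev lam (∑ k ∈ s, f k) y = ∑ k ∈ s, ev lam (f k) y := by
  simp only [ev, map_sum]

theorem pair_finset_sum_right {ι : Type*} (s : Finset ι) (a : Pt →₀ ℤ) (f : ι → Pt →₀ ℤ) :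
    pair lam a (∑ k ∈ s, f k) = ∑ k ∈ s, pair lam a (f k) := by
  simp only [pair, map_sum]

theorem pair_finset_sum_left {ι : Type*} (s : Finset ι) (f : ι → Pt →₀ ℤ) (b : Pt →₀ ℤ) :
    pair lam (∑ k ∈ s, f k) b = ∑ k ∈ s, pair lam (f k) b := by
  classical
  induction s using Finset.induction_on with
  | empty => simp
  | insert i s hi ih => rw [Finset.sum_insert hi, Finset.sum_insert hi, pair_add_left, ih]

/-- The divisor `R_1 + … + R_n` of a family of points. -/
noncomputable def eff {ι : Type*} (s : Finset ι) (R : ι → Pt) : Pt →₀ ℤ :=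
  ∑ k ∈ s, Finsupp.single (R k) 1

theorem cdeg_eff {ι : Type*} (s : Finset ι) (R : ι → Pt) : cdeg (eff s R) = s.card := by
  simp [eff, map_sum]

theorem size_eff_le {ι : Type*} (s : Finset ι) (R : ι → Pt) : size (eff s R) ≤ s.card := by
  classical
  induction s using Finset.induction_on with
  | empty => simp [eff]
  | insert i s hi ih =>
    rw [eff, Finset.sum_insert hi, Finset.card_insert_of_notMem hi]
    refine (size_add_le _ _).trans ?_
    have h1 : size (Finsupp.single (R i) (1 : ℤ)) = 1 := by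
      simp [size, Finsupp.sum_single_index]
    rw [h1, add_comm]
    exact Nat.add_le_add_right ih 1

theorem ev_eff {ι : Type*} (s : Finset ι) (R : ι → Pt) (y : Pt) :
    ev lam (eff s R) y = ∑ k ∈ s, lam (R k) y := by
  rw [eff, ev_finset_sum]
  exact Finset.sum_congr rfl fun k _ => by rw [ev_single, Int.cast_one, one_mul]

theorem pair_eff_eff {ι κ : Type*} (s : Finset ι) (R : ι → Pt) (t : Finset κ) (R' : κ → Pt) :
    pair lam (eff s R) (eff t R') = ∑ k ∈ s, ∑ l ∈ t, lam (R k) (R' l) := by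
  rw [eff, eff, pair_finset_sum_left]
  refine Finset.sum_congr rfl fun k _ => ?_
  rw [pair_finset_sum_right]
  exact Finset.sum_congr rfl fun l _ => by rw [pair_single_single]; simp

/-- The quadratic function `q a = -<a,a>`. -/
noncomputable def q (a : Pt →₀ ℤ) : ℝ := -pair lam a a

/-- The exact parallelogram law on divisors. -/
theorem q_add_add_q_sub (a b : Pt →₀ ℤ) :
    q lam (a + b) + q lam (a - b) = 2 * q lam a + 2 * q lam b := by
  simp only [q, pair_add_left, pair_add_right, pair_sub_left, pair_sub_right]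
  ring

variable {lam} in
/-- `q (E - n P0) = 2n <E,P0> - <E,E> - n² lam(P0,P0)`: the function `Q(E)` of the blueprint, up to
a constant. -/
theorem q_sub_nsmul_single (hsymm : ∀ x y, lam x y = lam y x) (E : Pt →₀ ℤ) (P0 : Pt) (n : ℤ) :
    q lam (E - Finsupp.single P0 n) =
      2 * n * ev lam E P0 - pair lam E E - (n : ℝ) ^ 2 * lam P0 P0 := by
  have h1 : pair lam (Finsupp.single P0 n) E = pair lam E (Finsupp.single P0 n) :=
    pair_comm hsymm _ _
  simp only [q, pair_sub_left, pair_sub_right, h1, pair_single_right, ev_sub, ev_single]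
  ring

/-- `Q(E)` for `E = R_1 + … + R_n`:
`q (E - n P0) = 2n Σ_k lam(R_k,P0) - Σ_{k,l} lam(R_k,R_l) - n² lam(P0,P0)` (the double sum contains
the adjunction terms `k = l`). -/
theorem q_eff_sub {ι : Type*} (hsymm : ∀ x y, lam x y = lam y x) (s : Finset ι) (R : ι → Pt)
    (P0 : Pt) :
    q lam (eff s R - Finsupp.single P0 (s.card : ℤ)) =
      2 * s.card * ∑ k ∈ s, lam (R k) P0 - ∑ k ∈ s, ∑ l ∈ s, lam (R k) (R l) -
        (s.card : ℝ) ^ 2 * lam P0 P0 := by
  rw [q_sub_nsmul_single hsymm, ev_eff, pair_eff_eff]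
  push_cast
  ring

/-! ### The uniform decomposition theorem and its consequences -/

/-- **(UD)**, global form with adjunction: `y` ranges over ALL points. -/
def UD (Prin : AddSubgroup (Pt →₀ ℤ)) : Prop :=
  ∀ d : ℕ, ∃ C : ℝ, ∀ u ∈ Prin, size u ≤ d → ∃ c : ℝ, ∀ y : Pt, |ev lam u y + c| ≤ C

variable {lam}

theorem abs_pair_add_le {u : Pt →₀ ℤ} {c C : ℝ} (h : ∀ y, |ev lam u y + c| ≤ C) (b : Pt →₀ ℤ) :
    |pair lam u b + (cdeg b : ℝ) * c| ≤ C * size b := by
  classical
  have h1 : pair lam u b + (cdeg b : ℝ) * c = ∑ w ∈ b.support, (b w : ℝ) * (ev lam u w + c) := by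
    rw [pair_eq_sum, cdeg_apply, Finsupp.sum, Finsupp.sum]
    push_cast
    rw [Finset.sum_mul, ← Finset.sum_add_distrib]
    exact Finset.sum_congr rfl fun w _ => by ring
  have h2 : (size b : ℝ) = ∑ w ∈ b.support, |(b w : ℝ)| := by
    rw [size, Finsupp.sum]
    push_cast
    exact Finset.sum_congr rfl fun w _ => by rw [Nat.cast_natAbs, Int.cast_abs]
  rw [h1, h2, Finset.mul_sum]
  refine (Finset.abs_sum_le_sum_abs _ _).trans (Finset.sum_le_sum fun w _ => ?_)
  rw [abs_mul, mul_comm]
  exact mul_le_mul_of_nonneg_right (h w) (abs_nonneg _)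

variable {Prin : AddSubgroup (Pt →₀ ℤ)}

/-- `<u, b> = -deg(b) c(u) + O(1)` for principal `u` and bounded `b`. -/
theorem pair_prin_bound (hUD : UD lam Prin) (d e : ℕ) :
    ∃ C : ℝ, 0 ≤ C ∧ ∀ u ∈ Prin, size u ≤ d → ∃ c : ℝ, ∀ b : Pt →₀ ℤ, size b ≤ e →
      |pair lam u b + (cdeg b : ℝ) * c| ≤ C := by
  obtain ⟨C, hC⟩ := hUD d
  refine ⟨max C 0 * e, mul_nonneg (le_max_right _ _) (Nat.cast_nonneg _), fun u hu hd => ?_⟩
  obtain ⟨c, hc⟩ := hC u hu hd
  refine ⟨c, fun b hb => ?_⟩
  refine (abs_pair_add_le (C := max C 0) (fun y => (hc y).trans (le_max_left _ _)) b).trans ?_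
  exact mul_le_mul_of_nonneg_left (by exact_mod_cast hb) (le_max_right _ _)

/-- **Class invariance of `q`** on representatives of bounded size. -/
theorem q_congr (hsymm : ∀ x y, lam x y = lam y x) (hP0 : ∀ u ∈ Prin, cdeg u = 0)
    (hUD : UD lam Prin) (M : ℕ) :
    ∃ C : ℝ, 0 ≤ C ∧ ∀ a a' : Pt →₀ ℤ, cdeg a = 0 → size a ≤ M → size a' ≤ M → a - a' ∈ Prin →
      |q lam a - q lam a'| ≤ C := by
  obtain ⟨C, hC0, hC⟩ := pair_prin_bound hUD (2 * M) (2 * M)
  refine ⟨3 * C, by positivity, fun a a' ha hsa hsa' hu => ?_⟩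
  have hsu : size (a - a') ≤ 2 * M := (size_sub_le a a').trans (by omega)
  obtain ⟨c, hc⟩ := hC (a - a') hu hsu
  have h1 := hc a (hsa.trans (by omega))
  have h2 := hc (a - a') hsu
  rw [ha, Int.cast_zero, zero_mul, add_zero] at h1
  rw [hP0 _ hu, Int.cast_zero, zero_mul, add_zero] at h2
  -- `q a' = q (a - u) = q a + 2<u,a> - <u,u>`
  have h3 : q lam a' = q lam a + 2 * pair lam (a - a') a - pair lam (a - a') (a - a') := by
    have e : a' = a - (a - a') := by abel
    have hc1 : pair lam a (a - a') = pair lam (a - a') a := pair_comm hsymm _ _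
    conv_lhs => rw [e]
    simp only [q, pair_sub_left, pair_sub_right] at hc1 ⊢
    linarith
  rw [h3]
  have a1 := abs_le.mp h1
  have a2 := abs_le.mp h2
  rw [abs_le]
  constructor <;> linarith [a1.1, a1.2, a2.1, a2.2]

/-- The quasi-parallelogram law on representatives of bounded size. -/
theorem quasiPar_reps (hsymm : ∀ x y, lam x y = lam y x) (hP0 : ∀ u ∈ Prin, cdeg u = 0)
    (hUD : UD lam Prin) (M : ℕ) :
    ∃ C : ℝ, 0 ≤ C ∧ ∀ a b s t : Pt →₀ ℤ, cdeg a = 0 → cdeg b = 0 →
      size a ≤ M → size b ≤ M → size s ≤ M → size t ≤ M →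
      s - (a + b) ∈ Prin → t - (a - b) ∈ Prin →
      |q lam s + q lam t - 2 * q lam a - 2 * q lam b| ≤ C := by
  obtain ⟨C, hC0, hC⟩ := q_congr hsymm hP0 hUD (2 * M)
  refine ⟨2 * C, by positivity, fun a b s t ha hb hsa hsb hss hst hs ht => ?_⟩
  have hab : cdeg (a + b) = 0 := by rw [map_add, ha, hb, add_zero]
  have hab' : cdeg (a - b) = 0 := by rw [map_sub, ha, hb, sub_zero]
  have h1 := hC (a + b) s hab ((size_add_le a b).trans (by omega)) (hss.trans (by omega))
    (by have := Prin.neg_mem hs; rwa [neg_sub] at this)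
  have h2 := hC (a - b) t hab' ((size_sub_le a b).trans (by omega)) (hst.trans (by omega))
    (by have := Prin.neg_mem ht; rwa [neg_sub] at this)
  have h3 := q_add_add_q_sub lam a b
  have a1 := abs_le.mp h1
  have a2 := abs_le.mp h2
  rw [abs_le]
  constructor <;> linarith [a1.1, a1.2, a2.1, a2.2]

/-- **The quasi-quadratic function on the class group.**  `D0` is a group of divisors of coefficient
sum `0`, `π : D0 →+ J` has kernel `Prin` and every class has a representative of size `≤ M`. -/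
theorem exists_qhat (hsymm : ∀ x y, lam x y = lam y x) (hP0 : ∀ u ∈ Prin, cdeg u = 0)
    (hUD : UD lam Prin) {J : Type*} [AddCommGroup J] (D0 : AddSubgroup (Pt →₀ ℤ))
    (hD0 : ∀ a ∈ D0, cdeg a = 0) (π : D0 →+ J)
    (hker : ∀ a : D0, π a = 0 → (a : Pt →₀ ℤ) ∈ Prin)
    (M : ℕ) (hrep : ∀ x : J, ∃ a : D0, size (a : Pt →₀ ℤ) ≤ M ∧ π a = x) :
    ∃ qhat : J → ℝ, QuasiPar qhat ∧
      ∀ M' : ℕ, ∃ C : ℝ, ∀ a : D0, size (a : Pt →₀ ℤ) ≤ M' → |qhat (π a) - q lam a| ≤ C := by
  classical
  choose rep hrepM hrepπ using hrep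
  refine ⟨fun x => q lam (rep x : Pt →₀ ℤ), ?_, fun M' => ?_⟩
  · obtain ⟨C, -, hC⟩ := quasiPar_reps hsymm hP0 hUD M
    refine ⟨C, fun x y => ?_⟩
    refine hC (rep x) (rep y) (rep (x + y)) (rep (x - y)) (hD0 _ (rep x).2) (hD0 _ (rep y).2)
      (hrepM x) (hrepM y) (hrepM _) (hrepM _) ?_ ?_
    · have h := hker (rep (x + y) - (rep x + rep y))
        (by rw [map_sub, map_add, hrepπ, hrepπ, hrepπ, sub_self])
      simpa using h
    · have h := hker (rep (x - y) - (rep x - rep y))
        (by rw [map_sub, map_sub, hrepπ, hrepπ, hrepπ, sub_self])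
      simpa using h
  · obtain ⟨C, -, hC⟩ := q_congr hsymm hP0 hUD (max M M')
    refine ⟨C, fun a ha => ?_⟩
    refine hC (rep (π a)) a (hD0 _ (rep (π a)).2) ((hrepM _).trans (le_max_left _ _))
      (ha.trans (le_max_right _ _)) ?_
    have h := hker (rep (π a) - a) (by rw [map_sub, hrepπ, sub_self])
    simpa using h

end Fermat.Agent.MW.PAIR.Pairing4
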