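/-
Programme MW (S17), block PAIR (helper4): **the pairing calculus instantiated on `Pic0 K F`**
(`K` with all places of degree one, e.g. algebraically closed).

* `cdeg_eq_degree` : the coefficient sum is `Divisor.degree` when every place has degree one;
* **`exists_qhat_pic0`** : from a symmetric `lam : Place K F → Place K F → ℝ` with
  `UD lam Divisor.principal` and bounded representatives, a function `qhat : Pic0 K F → ℝ` with the
  quasi-parallelogram law and `qhat (Pic0.mk a) = q lam a + O(1)` on representatives of bounded size;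
* **`fg_fixedPoints`** : the final descent on the subgroup of fixed points of a group action.
-/
import Mathlib
import Fermat.Prelude.Def_AlgebraicCurve_DivisorClassGroup
import Fermat.Agent.MW.PAIR.Pairing4

set_option autoImplicit false
set_option linter.unusedSectionVars false

namespace Fermat.Agent.MW.PAIR.PicInst4

open AlgebraicCurve Fermat.Agent.MW.DESC.Descent4 Fermat.Agent.MW.PAIR.Pairing4

variable {K F : Type*} [Field K] [Field F] [Algebra K F]

theorem cdeg_eq_degree (hdeg : ∀ v : Place K F, v.deg = 1) (D : Divisor K F) :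
    cdeg D = Divisor.degree D := by
  induction D using Finsupp.induction_linear with
  | zero => simp
  | add a b ha hb => rw [map_add, map_add, ha, hb]
  | single v n => rw [cdeg_single, Divisor.degree_single, hdeg v]; simp

/-- The pairing calculus on `Pic0 K F`. -/
theorem exists_qhat_pic0 (hdeg : ∀ v : Place K F, v.deg = 1)
    {lam : Place K F → Place K F → ℝ} (hsymm : ∀ x y, lam x y = lam y x)
    (hP0 : ∀ u ∈ Divisor.principal (K := K) (F := F), Divisor.degree u = 0)
    (hUD : UD lam (Divisor.principal (K := K) (F := F)))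
    (M : ℕ)
    (hrep : ∀ x : Pic0 K F, ∃ a : Divisor.degZero (K := K) (F := F),
      size (a : Divisor K F) ≤ M ∧ Pic0.mk a = x) :
    ∃ qhat : Pic0 K F → ℝ, QuasiPar qhat ∧
      ∀ M' : ℕ, ∃ C : ℝ, ∀ a : Divisor.degZero (K := K) (F := F),
        size (a : Divisor K F) ≤ M' → |qhat (Pic0.mk a) - q lam (a : Divisor K F)| ≤ C := by
  refine exists_qhat hsymm (fun u hu => by rw [cdeg_eq_degree hdeg, hP0 u hu]) hUD
    (Divisor.degZero (K := K) (F := F))
    (fun a ha => by rw [cdeg_eq_degree hdeg]; exact ha)
    (QuotientAddGroup.mk' _) (fun a ha => ?_) M hrep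
  have h : a ∈ (Divisor.principal (K := K) (F := F)).addSubgroupOf
      (Divisor.degZero (K := K) (F := F)) := by
    rwa [← QuotientAddGroup.eq_zero_iff]
  exact AddSubgroup.mem_addSubgroupOf.mp h

/-- **Final descent** on the fixed points of a group acting on `J`. -/
theorem fg_fixedPoints {G J : Type*} [Group G] [AddCommGroup J] [DistribMulAction G J]
    (qhat : J → ℝ) (hpar : QuasiPar qhat)
    (hN : ∀ B : ℝ, {x : J | x ∈ FixedPoints.addSubgroup G J ∧ qhat x ≤ B}.Finite)
    (hfin : Finite (↥(FixedPoints.addSubgroup G J) ⧸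
      (zsmulAddGroupHom (α := ↥(FixedPoints.addSubgroup G J)) 2).range)) :
    AddGroup.FG ↥(FixedPoints.addSubgroup G J) := by
  obtain ⟨C, hC⟩ := hpar
  refine fg_of_quasiPar' (fun x : ↥(FixedPoints.addSubgroup G J) => qhat x)
    ⟨C, fun x y => hC x y⟩ (fun B => ?_) hfin
  have hinj : Set.InjOn (fun x : ↥(FixedPoints.addSubgroup G J) => (x : J))
      {x | qhat x ≤ B} := fun a _ b _ hab => Subtype.ext hab
  refine Set.Finite.of_finite_image ((hN B).subset ?_) hinj
  rintro _ ⟨x, hx, rfl⟩
  exact ⟨x.2, hx⟩

end Fermat.Agent.MW.PAIR.PicInst4
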