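/-
Programme MW (S17), block PAIR (helper4): **the pairing calculus with a BOUNDED uniform
decomposition hypothesis** (a single projective embedding only controls principal divisors of
bounded size).

* `UDle lam Prin d` : `∃ C, ∀ u ∈ Prin, size u ≤ d → ∃ c, ∀ y, |ev lam u y + c| ≤ C`;
  `UD lam Prin ↔ ∀ d, UDle lam Prin d`;
* `pair_prin_bound_le`, `q_congr_le` (needs `UDle … (2 * M)`), `quasiPar_reps_le` and
  **`exists_qhat_le`** (need `UDle … (4 * M)`; comparison `qhat (π a) = q lam a + O(1)` for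
  `size a ≤ 2 * M`);
* `exists_qhat_pic0_le` : the same on `Pic0 K F`.
-/
import Mathlib
import Fermat.Agent.MW.PAIR.PicInst4

set_option autoImplicit false
set_option linter.unusedSectionVars false

namespace Fermat.Agent.MW.PAIR.PairingB4

open AlgebraicCurve Fermat.Agent.MW.DESC.Descent4 Fermat.Agent.MW.PAIR.Pairing4
open Fermat.Agent.MW.PAIR.PicInst4

variable {Pt : Type*} {lam : Pt → Pt → ℝ} {Prin : AddSubgroup (Pt →₀ ℤ)}

/-- **(UD)** for principal divisors of size `≤ d` only. -/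
def UDle (lam : Pt → Pt → ℝ) (Prin : AddSubgroup (Pt →₀ ℤ)) (d : ℕ) : Prop :=
  ∃ C : ℝ, ∀ u ∈ Prin, size u ≤ d → ∃ c : ℝ, ∀ y : Pt, |ev lam u y + c| ≤ C

theorem ud_iff_forall_udle : UD lam Prin ↔ ∀ d, UDle lam Prin d := Iff.rfl

theorem UDle.mono {d d' : ℕ} (h : UDle lam Prin d) (hd : d' ≤ d) : UDle lam Prin d' := by
  obtain ⟨C, hC⟩ := h
  exact ⟨C, fun u hu hs => hC u hu (hs.trans hd)⟩

theorem pair_prin_bound_le {d : ℕ} (hUD : UDle lam Prin d) (e : ℕ) :
    ∃ C : ℝ, 0 ≤ C ∧ ∀ u ∈ Prin, size u ≤ d → ∃ c : ℝ, ∀ b : Pt →₀ ℤ, size b ≤ e →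
      |pair lam u b + (cdeg b : ℝ) * c| ≤ C := by
  obtain ⟨C, hC⟩ := hUD
  refine ⟨max C 0 * e, mul_nonneg (le_max_right _ _) (Nat.cast_nonneg _), fun u hu hd => ?_⟩
  obtain ⟨c, hc⟩ := hC u hu hd
  refine ⟨c, fun b hb => ?_⟩
  refine (abs_pair_add_le (C := max C 0) (fun y => (hc y).trans (le_max_left _ _)) b).trans ?_
  exact mul_le_mul_of_nonneg_left (by exact_mod_cast hb) (le_max_right _ _)

/-- Class invariance of `q` on representatives of size `≤ M`, from `UDle … (2 * M)`. -/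
theorem q_congr_le (hsymm : ∀ x y, lam x y = lam y x) (hP0 : ∀ u ∈ Prin, cdeg u = 0)
    {M : ℕ} (hUD : UDle lam Prin (2 * M)) :
    ∃ C : ℝ, 0 ≤ C ∧ ∀ a a' : Pt →₀ ℤ, cdeg a = 0 → size a ≤ M → size a' ≤ M → a - a' ∈ Prin →
      |q lam a - q lam a'| ≤ C := by
  obtain ⟨C, hC0, hC⟩ := pair_prin_bound_le hUD (2 * M)
  refine ⟨3 * C, by positivity, fun a a' ha hsa hsa' hu => ?_⟩
  have hsu : size (a - a') ≤ 2 * M := (size_sub_le a a').trans (by omega)
  obtain ⟨c, hc⟩ := hC (a - a') hu hsu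
  have h1 := hc a (hsa.trans (by omega))
  have h2 := hc (a - a') hsu
  rw [ha, Int.cast_zero, zero_mul, add_zero] at h1
  rw [hP0 _ hu, Int.cast_zero, zero_mul, add_zero] at h2
  have h3 : q lam a' = q lam a + 2 * pair lam (a - a') a - pair lam (a - a') (a - a') := by
    have e : a' = a - (a - a') := by abel
    have hc1 : pair lam a (a - a') = pair lam (a - a') a := pair_comm hsymm _ _
    conv_lhs => rw [e]
    simp only [q, pair_sub_left, pair_sub_right] at hc1 ⊢
    linarith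
  rw [h3]
  have a1 := abs_le.mp h1
  have a2 := abs_le.mp h2
  rw [abs_le]
  constructor <;> linarith [a1.1, a1.2, a2.1, a2.2]

/-- The quasi-parallelogram law on representatives of size `≤ M`, from `UDle … (4 * M)`. -/
theorem quasiPar_reps_le (hsymm : ∀ x y, lam x y = lam y x) (hP0 : ∀ u ∈ Prin, cdeg u = 0)
    {M : ℕ} (hUD : UDle lam Prin (4 * M)) :
    ∃ C : ℝ, 0 ≤ C ∧ ∀ a b s t : Pt →₀ ℤ, cdeg a = 0 → cdeg b = 0 →
      size a ≤ M → size b ≤ M → size s ≤ M → size t ≤ M →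
      s - (a + b) ∈ Prin → t - (a - b) ∈ Prin →
      |q lam s + q lam t - 2 * q lam a - 2 * q lam b| ≤ C := by
  obtain ⟨C, hC0, hC⟩ := q_congr_le (M := 2 * M) hsymm hP0 (hUD.mono (by omega))
  refine ⟨2 * C, by positivity, fun a b s t ha hb hsa hsb hss hst hs ht => ?_⟩
  have hab : cdeg (a + b) = 0 := by rw [map_add, ha, hb, add_zero]
  have hab' : cdeg (a - b) = 0 := by rw [map_sub, ha, hb, sub_zero]
  have h1 := hC (a + b) s hab ((size_add_le a b).trans (by omega)) (hss.trans (by omega))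
    (by have := Prin.neg_mem hs; rwa [neg_sub] at this)
  have h2 := hC (a - b) t hab' ((size_sub_le a b).trans (by omega)) (hst.trans (by omega))
    (by have := Prin.neg_mem ht; rwa [neg_sub] at this)
  have h3 := q_add_add_q_sub lam a b
  have a1 := abs_le.mp h1
  have a2 := abs_le.mp h2
  rw [abs_le]
  constructor <;> linarith [a1.1, a1.2, a2.1, a2.2]

/-- **The quasi-quadratic function on the class group**, from `UDle … (4 * M)`. -/
theorem exists_qhat_le (hsymm : ∀ x y, lam x y = lam y x) (hP0 : ∀ u ∈ Prin, cdeg u = 0)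
    {J : Type*} [AddCommGroup J] (D0 : AddSubgroup (Pt →₀ ℤ))
    (hD0 : ∀ a ∈ D0, cdeg a = 0) (π : D0 →+ J)
    (hker : ∀ a : D0, π a = 0 → (a : Pt →₀ ℤ) ∈ Prin)
    (M : ℕ) (hUD : UDle lam Prin (4 * M))
    (hrep : ∀ x : J, ∃ a : D0, size (a : Pt →₀ ℤ) ≤ M ∧ π a = x) :
    ∃ qhat : J → ℝ, QuasiPar qhat ∧
      ∃ C : ℝ, ∀ a : D0, size (a : Pt →₀ ℤ) ≤ 2 * M → |qhat (π a) - q lam a| ≤ C := by
  classical
  choose rep hrepM hrepπ using hrep
  refine ⟨fun x => q lam (rep x : Pt →₀ ℤ), ?_, ?_⟩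
  · obtain ⟨C, -, hC⟩ := quasiPar_reps_le hsymm hP0 hUD
    refine ⟨C, fun x y => ?_⟩
    refine hC (rep x) (rep y) (rep (x + y)) (rep (x - y)) (hD0 _ (rep x).2) (hD0 _ (rep y).2)
      (hrepM x) (hrepM y) (hrepM _) (hrepM _) ?_ ?_
    · have h := hker (rep (x + y) - (rep x + rep y))
        (by rw [map_sub, map_add, hrepπ, hrepπ, hrepπ, sub_self])
      simpa using h
    · have h := hker (rep (x - y) - (rep x - rep y))
        (by rw [map_sub, map_sub, hrepπ, hrepπ, hrepπ, sub_self])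
      simpa using h
  · obtain ⟨C, -, hC⟩ := q_congr_le (M := 2 * M) hsymm hP0 (hUD.mono (by omega))
    refine ⟨C, fun a ha => ?_⟩
    refine hC (rep (π a)) a (hD0 _ (rep (π a)).2) ((hrepM _).trans (by omega)) ha ?_
    have h := hker (rep (π a) - a) (by rw [map_sub, hrepπ, sub_self])
    simpa using h

/-- The bounded pairing calculus on `Pic0 K F`. -/
theorem exists_qhat_pic0_le {K F : Type*} [Field K] [Field F] [Algebra K F]
    (hdeg : ∀ v : Place K F, v.deg = 1)
    {lam : Place K F → Place K F → ℝ} (hsymm : ∀ x y, lam x y = lam y x)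
    (hP0 : ∀ u ∈ Divisor.principal (K := K) (F := F), Divisor.degree u = 0)
    (M : ℕ) (hUD : UDle lam (Divisor.principal (K := K) (F := F)) (4 * M))
    (hrep : ∀ x : Pic0 K F, ∃ a : Divisor.degZero (K := K) (F := F),
      size (a : Divisor K F) ≤ M ∧ Pic0.mk a = x) :
    ∃ qhat : Pic0 K F → ℝ, QuasiPar qhat ∧
      ∃ C : ℝ, ∀ a : Divisor.degZero (K := K) (F := F),
        size (a : Divisor K F) ≤ 2 * M → |qhat (Pic0.mk a) - q lam (a : Divisor K F)| ≤ C := by
  refine exists_qhat_le hsymm (fun u hu => by rw [cdeg_eq_degree hdeg, hP0 u hu])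
    (Divisor.degZero (K := K) (F := F))
    (fun a ha => by rw [cdeg_eq_degree hdeg]; exact ha)
    (QuotientAddGroup.mk' _) (fun a ha => ?_) M hUD hrep
  have h : a ∈ (Divisor.principal (K := K) (F := F)).addSubgroupOf
      (Divisor.degZero (K := K) (F := F)) := by
    rwa [← QuotientAddGroup.eq_zero_iff]
  exact AddSubgroup.mem_addSubgroupOf.mp h

end Fermat.Agent.MW.PAIR.PairingB4
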