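/-
Programme MW (S17), block PAIR (helper4): **curve-height comparisons inside the pairing calculus**
(verdict item (d) of `IDEA/S17-C-verdict`), pure algebra on top of `Pairing4`.

`lam : Pt → Pt → ℝ` a global symmetric function, bounded below off the diagonal
(`OffDiag lam C0 : ∀ x ≠ y, -C0 ≤ lam x y`).

* `Decomp lam u : ∃ c C, ∀ y, |ev lam u y + c| ≤ C` (the divisor `u` "is principal for `lam`");
  an additive subgroup (`Decomp.add`, `Decomp.neg`, `Decomp.zsmul`); `decomp_of_udle`.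
* `BB lam a : ∃ C, ∀ y, -C ≤ ev lam a y` (the Weil function of `a` is bounded below EVERYWHERE,
  also on the support of `a`); `BB.add`, `BB.nsmul`, `BB.of_decomp`, `BB.congr`.
* `bb_of_disjoint` : two effective divisors with disjoint supports whose difference is `Decomp`
  are both `BB` (= "a base-point-free class has a Weil function bounded below").
* `ev_ge_of_bb` : if `m • Z + n • P0` is `BB` (`m ≥ 1`), then
  `ev lam Z y ≥ -(n/m) * lam P0 y - C` for all `y`.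
* `lam_ge_of_bb`, `ev_eff_ge_of_bb` : the corollaries `lam a y ≥ (1 - n/m) lam P0 y - C` and
  `ev lam F y ≥ (deg F - n/m) lam P0 y - C`.
-/
import Mathlib
import Fermat.Agent.MW.PAIR.PairingB4

set_option autoImplicit false
set_option linter.unusedSectionVars false

namespace Fermat.Agent.MW.PAIR.Compare4

open Fermat.Agent.MW.DESC.Descent4 Fermat.Agent.MW.PAIR.Pairing4
open Fermat.Agent.MW.PAIR.PairingB4

variable {Pt : Type*} {lam : Pt → Pt → ℝ}

/-! ### `Decomp` -/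

/-- The Weil function of `u` is constant up to a bounded error. -/
def Decomp (lam : Pt → Pt → ℝ) (u : Pt →₀ ℤ) : Prop :=
  ∃ c C : ℝ, ∀ y : Pt, |ev lam u y + c| ≤ C

theorem Decomp.zero : Decomp lam (0 : Pt →₀ ℤ) := ⟨0, 0, fun y => by simp⟩

theorem Decomp.add {u v : Pt →₀ ℤ} (hu : Decomp lam u) (hv : Decomp lam v) :
    Decomp lam (u + v) := by
  obtain ⟨c, C, h⟩ := hu
  obtain ⟨c', C', h'⟩ := hv
  refine ⟨c + c', C + C', fun y => ?_⟩
  rw [ev_add]
  have e : ev lam u y + ev lam v y + (c + c') = (ev lam u y + c) + (ev lam v y + c') := by ring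
  rw [e]
  exact (abs_add_le _ _).trans (add_le_add (h y) (h' y))

theorem Decomp.neg {u : Pt →₀ ℤ} (hu : Decomp lam u) : Decomp lam (-u) := by
  obtain ⟨c, C, h⟩ := hu
  refine ⟨-c, C, fun y => ?_⟩
  rw [ev_neg, ← neg_add, abs_neg]
  exact h y

theorem Decomp.sub {u v : Pt →₀ ℤ} (hu : Decomp lam u) (hv : Decomp lam v) :
    Decomp lam (u - v) := by
  rw [sub_eq_add_neg]
  exact hu.add hv.neg

theorem Decomp.nsmul {u : Pt →₀ ℤ} (hu : Decomp lam u) (n : ℕ) : Decomp lam (n • u) := by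
  induction n with
  | zero => rw [zero_smul]; exact Decomp.zero
  | succ n ih => rw [succ_nsmul]; exact ih.add hu

theorem Decomp.zsmul {u : Pt →₀ ℤ} (hu : Decomp lam u) (n : ℤ) : Decomp lam (n • u) := by
  obtain ⟨k, rfl | rfl⟩ := n.eq_nat_or_neg
  · rw [natCast_zsmul]; exact hu.nsmul k
  · rw [neg_smul, natCast_zsmul]; exact (hu.nsmul k).neg

theorem decomp_of_udle {Prin : AddSubgroup (Pt →₀ ℤ)} {d : ℕ}
    (h : UDle lam Prin d) {u : Pt →₀ ℤ} (hu : u ∈ Prin) (hd : size u ≤ d) : Decomp lam u := by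
  obtain ⟨C, hC⟩ := h
  obtain ⟨c, hc⟩ := hC u hu hd
  exact ⟨c, C, hc⟩

/-! ### `BB` -/

/-- The Weil function of `a` is bounded below everywhere. -/
def BB (lam : Pt → Pt → ℝ) (a : Pt →₀ ℤ) : Prop := ∃ C : ℝ, ∀ y : Pt, -C ≤ ev lam a y

theorem BB.zero : BB lam (0 : Pt →₀ ℤ) := ⟨0, fun y => by simp⟩

theorem BB.add {a b : Pt →₀ ℤ} (ha : BB lam a) (hb : BB lam b) : BB lam (a + b) := by
  obtain ⟨C, h⟩ := ha
  obtain ⟨C', h'⟩ := hb
  refine ⟨C + C', fun y => ?_⟩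
  rw [ev_add]
  linarith [h y, h' y]

theorem BB.nsmul {a : Pt →₀ ℤ} (ha : BB lam a) (n : ℕ) : BB lam (n • a) := by
  induction n with
  | zero => rw [zero_smul]; exact BB.zero
  | succ n ih => rw [succ_nsmul]; exact ih.add ha

theorem BB.of_decomp {u : Pt →₀ ℤ} (hu : Decomp lam u) : BB lam u := by
  obtain ⟨c, C, h⟩ := hu
  refine ⟨C + c, fun y => ?_⟩
  have := abs_le.mp (h y)
  linarith [this.1]

/-- `BB` only depends on the class modulo `Decomp`. -/
theorem BB.congr {a b : Pt →₀ ℤ} (ha : BB lam a) (hab : Decomp lam (b - a)) : BB lam b := by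
  have h := ha.add (BB.of_decomp hab)
  rwa [add_sub_cancel] at h

/-! ### Effective divisors -/

/-- `lam` is bounded below off the diagonal. -/
def OffDiag (lam : Pt → Pt → ℝ) (C0 : ℝ) : Prop := ∀ x y : Pt, x ≠ y → -C0 ≤ lam x y

theorem ev_ge_of_notMem {C0 : ℝ} (h0 : OffDiag lam C0) {a : Pt →₀ ℤ} (ha : 0 ≤ a) {y : Pt}
    (hy : y ∉ a.support) : -(C0 * (cdeg a : ℝ)) ≤ ev lam a y := by
  rw [ev_eq_sum, cdeg_apply, Finsupp.sum, Finsupp.sum, Int.cast_sum, Finset.mul_sum,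
    ← Finset.sum_neg_distrib]
  refine Finset.sum_le_sum fun z hz => ?_
  have hzy : z ≠ y := fun e => hy (e ▸ hz)
  have h1 : (0 : ℝ) ≤ (a z : ℝ) := by exact_mod_cast ha z
  have h2 := h0 z y hzy
  nlinarith

/-- **A base-point-free class has a Weil function bounded below everywhere.** -/
theorem bb_of_disjoint {C0 : ℝ} (h0 : OffDiag lam C0) {a a' : Pt →₀ ℤ} (ha : 0 ≤ a)
    (ha' : 0 ≤ a') (hdisj : Disjoint a.support a'.support) (hu : Decomp lam (a - a')) :
    BB lam a := by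
  obtain ⟨c, C, h⟩ := hu
  refine ⟨max (C0 * (cdeg a : ℝ)) (C0 * (cdeg a' : ℝ) + c + C), fun y => ?_⟩
  by_cases hy : y ∈ a.support
  · have hy' : y ∉ a'.support := Finset.disjoint_left.mp hdisj hy
    have h1 := ev_ge_of_notMem h0 ha' hy'
    have h2 := abs_le.mp (h y)
    rw [ev_sub] at h2
    have := le_max_right (C0 * (cdeg a : ℝ)) (C0 * (cdeg a' : ℝ) + c + C)
    linarith [h2.1]
  · have h1 := ev_ge_of_notMem h0 ha hy
    have := le_max_left (C0 * (cdeg a : ℝ)) (C0 * (cdeg a' : ℝ) + c + C)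
    linarith

/-! ### The comparison inequalities -/

/-- If `m • Z + n • P0` is bounded below (`m ≥ 1`), then
`ev lam Z y ≥ -(n/m) * lam P0 y - C`. -/
theorem ev_ge_of_bb {Z : Pt →₀ ℤ} {P0 : Pt} {m n : ℕ} (hm : 0 < m)
    (h : BB lam (m • Z + n • Finsupp.single P0 (1 : ℤ))) :
    ∃ C : ℝ, ∀ y : Pt, -((n : ℝ) / m) * lam P0 y - C ≤ ev lam Z y := by
  obtain ⟨C, hC⟩ := h
  have hm' : (0 : ℝ) < m := by exact_mod_cast hm
  refine ⟨C / m, fun y => ?_⟩
  have h1 := hC y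
  have e : ev lam (m • Z + n • Finsupp.single P0 (1 : ℤ)) y =
      (m : ℝ) * ev lam Z y + (n : ℝ) * lam P0 y := by
    rw [ev_add, ← natCast_zsmul, ← natCast_zsmul, ev, ev, map_zsmul, map_zsmul, ← ev, ← ev,
      ev_single]
    simp [zsmul_eq_mul]
  rw [e] at h1
  have h2 : -((n : ℝ) / m) * lam P0 y - C / m = (-(n : ℝ) * lam P0 y - C) / m := by
    field_simp
  rw [h2, div_le_iff₀ hm']
  linarith

/-- `lam a y ≥ (1 - n/m) * lam P0 y - C` if `m • (a - P0) + n • P0` is bounded below. -/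
theorem lam_ge_of_bb {a P0 : Pt} {m n : ℕ} (hm : 0 < m)
    (h : BB lam (m • (Finsupp.single a (1 : ℤ) - Finsupp.single P0 1) +
      n • Finsupp.single P0 (1 : ℤ))) :
    ∃ C : ℝ, ∀ y : Pt, (1 - (n : ℝ) / m) * lam P0 y - C ≤ lam a y := by
  obtain ⟨C, hC⟩ := ev_ge_of_bb hm h
  refine ⟨C, fun y => ?_⟩
  have h1 := hC y
  rw [ev_sub, ev_single, ev_single] at h1
  simp only [Int.cast_one, one_mul] at h1
  linarith

/-- `lam P0 y ≥ (1/(1 + n/m)) …`: the reverse comparison, in the form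
`(1 + n/m) * lam P0 y + C ≥ lam a y`. -/
theorem lam_le_of_bb {a P0 : Pt} {m n : ℕ} (hm : 0 < m)
    (h : BB lam (m • (Finsupp.single P0 (1 : ℤ) - Finsupp.single a 1) +
      n • Finsupp.single P0 (1 : ℤ))) :
    ∃ C : ℝ, ∀ y : Pt, lam a y ≤ (1 + (n : ℝ) / m) * lam P0 y + C := by
  obtain ⟨C, hC⟩ := ev_ge_of_bb hm h
  refine ⟨C, fun y => ?_⟩
  have h1 := hC y
  rw [ev_sub, ev_single, ev_single] at h1
  simp only [Int.cast_one, one_mul] at h1
  linarith

/-- `ev lam F y ≥ (deg F - n/m) * lam P0 y - C` if `m • (F - deg F • P0) + n • P0` is bounded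
below. -/
theorem ev_ge_deg_of_bb {F : Pt →₀ ℤ} {P0 : Pt} {m n : ℕ} (hm : 0 < m)
    (h : BB lam (m • (F - Finsupp.single P0 (cdeg F)) + n • Finsupp.single P0 (1 : ℤ))) :
    ∃ C : ℝ, ∀ y : Pt, ((cdeg F : ℝ) - (n : ℝ) / m) * lam P0 y - C ≤ ev lam F y := by
  obtain ⟨C, hC⟩ := ev_ge_of_bb hm h
  refine ⟨C, fun y => ?_⟩
  have h1 := hC y
  rw [ev_sub, ev_single] at h1
  linarith

end Fermat.Agent.MW.PAIR.Compare4
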