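/-
Programme MW (S17), block PAIR (helper4): **curve-height comparisons on a function field**
(verdict item (d) of `IDEA/S17-C-verdict`), on top of `Compare4` and `RR/RRMain`.

Setting: `K` algebraically closed of characteristic zero, `F / K` with a transcendental generator
(`IsGen K x`), `[HasCanonicalDivisor]`; `lam : Place K F → Place K F → ℝ` bounded below off the
diagonal (`OffDiag lam C0`) and such that every principal divisor is `Decomp` (Weil's decomposition
theorem for single functions, NOT uniform).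

* `exists_disjoint_members` : a divisor of degree `≥ 2g` is linearly equivalent to two effective
  divisors with disjoint supports (base-point-freeness, from Riemann–Roch).
* `bb_of_degree_ge` : its Weil function is bounded below everywhere.
* **`abs_ev_sub_le`** : for every divisor `E`, base point `P0` and `ε > 0`:
  `|ev lam E y - deg E * lam P0 y| ≤ ε * lam P0 y + C` for all `y`
  (heights of algebraically equivalent divisors are quasi-equivalent).
* `lam_ge`, `lam_le` : `(1 - ε) lam P0 y - C ≤ lam a y ≤ (1 + ε) lam P0 y + C`.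
-/
import Mathlib
import Fermat.Agent.MW.PAIR.Compare4
import Fermat.Agent.RR.RRMain

set_option autoImplicit false
set_option linter.unusedSectionVars false

open AlgebraicCurve

namespace Fermat.Agent.MW.PAIR.Bpf4

open Fermat.Agent.X0.FF Fermat.Agent.RR.LSpace Fermat.Agent.RR.LHypGen Fermat.Agent.RR.RRMain
open Fermat.Agent.MW.PAIR.Pairing4 Fermat.Agent.MW.PAIR.PicInst4 Fermat.Agent.MW.PAIR.Compare4

variable {K F : Type*} [Field K] [Field F] [Algebra K F] [IsAlgClosed K] [CharZero K] {x : F}
  [HasCanonicalDivisor (K := K) (F := F)]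

/-- Membership in `L(D - v)` for a nonzero element of `L(D)`. -/
theorem mem_L_sub_single_iff (H : LHyp K F) {D : Divisor K F} {f : F} (hf : f ≠ 0)
    (hfD : f ∈ riemannRochSpace D) (v : Place K F) :
    f ∈ riemannRochSpace (D - Finsupp.single v 1) ↔ (D + divOf H hf) v ≠ 0 := by
  have h1 := (mem_L_iff hf).mp hfD
  rw [mem_L_iff hf, Finsupp.add_apply, divOf_apply]
  constructor
  · intro h
    have := h v
    rw [Finsupp.sub_apply, Finsupp.single_eq_same] at this
    omega
  · intro h w
    have hw := h1 w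
    rw [Finsupp.sub_apply]
    by_cases hwv : w = v
    · subst hwv
      rw [Finsupp.single_eq_same]
      omega
    · rw [Finsupp.single_eq_of_ne hwv]
      omega

theorem nonneg_add_divOf' (H : LHyp K F) {D : Divisor K F} {f : F} (hf : f ≠ 0)
    (hfD : f ∈ riemannRochSpace D) : 0 ≤ D + divOf H hf := by
  intro v
  have := (mem_L_iff hf).mp hfD v
  rw [Finsupp.add_apply, divOf_apply]
  simp only [Finsupp.coe_zero, Pi.zero_apply]
  omega

theorem divOf_mem_principal (H : LHyp K F) {f : F} (hf : f ≠ 0) :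
    divOf H hf ∈ Divisor.principal (K := K) (F := F) :=
  ⟨f, hf, fun v => divOf_apply H hf v⟩

/-- **Base-point-freeness in degree `≥ 2g`**: two effective members with disjoint supports. -/
theorem exists_disjoint_members (hx : IsGen K x) (D : Divisor K F)
    (hD : 2 * (genus K F : ℤ) ≤ Divisor.degree D) :
    ∃ A A' : Divisor K F, 0 ≤ A ∧ 0 ≤ A' ∧ Disjoint A.support A'.support ∧
      A - D ∈ Divisor.principal (K := K) (F := F) ∧
      A' - D ∈ Divisor.principal (K := K) (F := F) := by
  classical
  have H := lHyp_of_isGen hx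
  have : FiniteDimensional K (riemannRochSpace D) := finiteDimensional_L hx D
  have hfr := finrank_L_of_degree_gt hx D (by omega)
  -- a first nonzero member
  have hpos : 0 < Module.finrank K (riemannRochSpace D) := by
    have : (0 : ℤ) < Module.finrank K (riemannRochSpace D) := by rw [hfr]; omega
    exact_mod_cast this
  obtain ⟨f1, hf1⟩ := Module.finrank_pos_iff_exists_ne_zero.mp hpos
  have hf1' : (f1 : F) ≠ 0 := fun h => hf1 (Subtype.ext h)
  set A1 : Divisor K F := D + divOf H hf1' with hA1
  have hA1nn : 0 ≤ A1 := nonneg_add_divOf' H hf1' f1.2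
  -- the proper subspaces `L(D - v)`, `v ∈ supp A1`
  set s : Finset (Subspace K (riemannRochSpace D)) :=
    A1.support.image fun v =>
      Submodule.comap (riemannRochSpace D).subtype (riemannRochSpace (D - Finsupp.single v 1))
    with hs
  have htop : ⊤ ∉ s := by
    intro h
    obtain ⟨v, -, hv⟩ := Finset.mem_image.mp h
    have hle : riemannRochSpace D ≤ riemannRochSpace (D - Finsupp.single v 1) := by
      intro f hf
      have : (⟨f, hf⟩ : riemannRochSpace D) ∈ (⊤ : Subspace K (riemannRochSpace D)) := trivial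
      rw [← hv] at this
      exact this
    have : FiniteDimensional K (riemannRochSpace (D - Finsupp.single v 1)) :=
      finiteDimensional_L hx _
    have h2 := finrank_L_of_degree_gt hx (D - Finsupp.single v 1) (by
      rw [map_sub, degree_single H]; omega)
    rw [map_sub, degree_single H] at h2
    have h3 := Submodule.finrank_mono hle
    have : (Module.finrank K (riemannRochSpace D) : ℤ) ≤
        Module.finrank K (riemannRochSpace (D - Finsupp.single v 1)) := by exact_mod_cast h3
    omega
  obtain ⟨f2, hf2⟩ := (Set.ne_univ_iff_exists_notMem _).mp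
    (Subspace.biUnion_ne_univ_of_top_notMem htop)
  have hA1p : A1 - D ∈ Divisor.principal (K := K) (F := F) := by
    rw [hA1, add_sub_cancel_left]
    exact divOf_mem_principal H hf1'
  by_cases hf20 : (f2 : F) = 0
  · -- then `supp A1 = ∅`
    have hemp : A1.support = ∅ := by
      by_contra hne
      obtain ⟨v, hv⟩ := Finset.nonempty_iff_ne_empty.mpr hne
      apply hf2
      refine Set.mem_biUnion (Finset.mem_image_of_mem _ hv) ?_
      show (f2 : F) ∈ riemannRochSpace (D - Finsupp.single v 1)
      rw [hf20]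
      exact Submodule.zero_mem _
    refine ⟨A1, A1, hA1nn, hA1nn, ?_, hA1p, hA1p⟩
    rw [hemp]
    exact Finset.disjoint_empty_left _
  · set A2 : Divisor K F := D + divOf H hf20 with hA2
    refine ⟨A1, A2, hA1nn, nonneg_add_divOf' H hf20 f2.2, ?_, hA1p, ?_⟩
    · rw [Finset.disjoint_left]
      intro v hv hv2
      apply hf2
      refine Set.mem_biUnion (Finset.mem_image_of_mem _ hv) ?_
      show (f2 : F) ∈ riemannRochSpace (D - Finsupp.single v 1)
      rw [mem_L_sub_single_iff H hf20 f2.2 v]
      exact Finsupp.mem_support_iff.mp hv2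
    · rw [hA2, add_sub_cancel_left]
      exact divOf_mem_principal H hf20

variable {lam : Place K F → Place K F → ℝ}

/-- A divisor of degree `≥ 2g` has a Weil function bounded below everywhere. -/
theorem bb_of_degree_ge (hx : IsGen K x) {C0 : ℝ} (h0 : OffDiag lam C0)
    (hdec : ∀ u ∈ Divisor.principal (K := K) (F := F), Decomp lam u) (D : Divisor K F)
    (hD : 2 * (genus K F : ℤ) ≤ Divisor.degree D) : BB lam D := by
  obtain ⟨A, A', hA, hA', hdisj, hp, hp'⟩ := exists_disjoint_members hx D hD
  have h1 : Decomp lam (A - A') := by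
    have : A - A' = (A - D) - (A' - D) := by abel
    rw [this]
    exact hdec _ (sub_mem hp hp')
  have h2 : BB lam A := bb_of_disjoint h0 hA hA' hdisj h1
  refine h2.congr ?_
  have : D - A = -(A - D) := by abel
  rw [this]
  exact hdec _ (neg_mem hp)

/-- A lower bound for `lam P0 y`, all `y`. -/
theorem exists_lam_lower {C0 : ℝ} (h0 : OffDiag lam C0) (P0 : Place K F) :
    ∃ B : ℝ, 0 ≤ B ∧ ∀ y, -B ≤ lam P0 y := by
  refine ⟨max (max C0 (-lam P0 P0)) 0, le_max_right _ _, fun y => ?_⟩
  by_cases hy : P0 = y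
  · subst hy
    have := (le_max_right C0 (-lam P0 P0)).trans (le_max_left (max C0 (-lam P0 P0)) 0)
    linarith
  · have := h0 P0 y hy
    have := (le_max_left C0 (-lam P0 P0)).trans (le_max_left (max C0 (-lam P0 P0)) 0)
    linarith

/-- One-sided version for divisors of degree `0`. -/
theorem ev_ge_of_degree_eq_zero (hx : IsGen K x) {C0 : ℝ} (h0 : OffDiag lam C0)
    (hdec : ∀ u ∈ Divisor.principal (K := K) (F := F), Decomp lam u) (P0 : Place K F)
    (Z : Divisor K F) (hZ : Divisor.degree Z = 0) {ε : ℝ} (hε : 0 < ε) :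
    ∃ C : ℝ, ∀ y, -(ε * lam P0 y) - C ≤ ev lam Z y := by
  have H := lHyp_of_isGen hx
  obtain ⟨B, hB0, hB⟩ := exists_lam_lower h0 P0
  set n : ℕ := 2 * genus K F with hn
  obtain ⟨m, hm⟩ := exists_nat_gt ((n : ℝ) / ε)
  have hm0 : 0 < m := by
    have : (0 : ℝ) ≤ (n : ℝ) / ε := div_nonneg (Nat.cast_nonneg _) hε.le
    have : (0 : ℝ) < m := lt_of_le_of_lt this hm
    exact_mod_cast this
  have hm' : (0 : ℝ) < m := by exact_mod_cast hm0
  have hnm : (n : ℝ) / m ≤ ε := by
    rw [div_le_iff₀ hm']
    rw [div_lt_iff₀ hε] at hm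
    linarith
  have hbb : BB lam (m • Z + n • Finsupp.single P0 (1 : ℤ)) := by
    refine bb_of_degree_ge hx h0 hdec _ ?_
    rw [map_add, map_nsmul, map_nsmul, hZ, degree_single H, hn]
    simp
  obtain ⟨C, hC⟩ := ev_ge_of_bb hm0 hbb
  refine ⟨C + ε * B, fun y => ?_⟩
  have h1 := hC y
  have h2 := hB y
  have h3 : (0 : ℝ) ≤ (n : ℝ) / m := div_nonneg (Nat.cast_nonneg _) hm'.le
  nlinarith

/-- **Quasi-equivalence of the heights of algebraically equivalent divisors.** -/
theorem abs_ev_sub_le (hx : IsGen K x) {C0 : ℝ} (h0 : OffDiag lam C0)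
    (hdec : ∀ u ∈ Divisor.principal (K := K) (F := F), Decomp lam u) (P0 : Place K F)
    (E : Divisor K F) {ε : ℝ} (hε : 0 < ε) :
    ∃ C : ℝ, ∀ y, |ev lam E y - (Divisor.degree E : ℝ) * lam P0 y| ≤ ε * lam P0 y + C := by
  have H := lHyp_of_isGen hx
  set Z : Divisor K F := E - Finsupp.single P0 (Divisor.degree E) with hZdef
  have hZ : Divisor.degree Z = 0 := by
    rw [hZdef, map_sub, degree_single H, sub_self]
  have hZ' : Divisor.degree (-Z) = 0 := by rw [map_neg, hZ, neg_zero]
  obtain ⟨C1, h1⟩ := ev_ge_of_degree_eq_zero hx h0 hdec P0 Z hZ hε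
  obtain ⟨C2, h2⟩ := ev_ge_of_degree_eq_zero hx h0 hdec P0 (-Z) hZ' hε
  refine ⟨max C1 C2, fun y => ?_⟩
  have e : ev lam E y - (Divisor.degree E : ℝ) * lam P0 y = ev lam Z y := by
    rw [hZdef, ev_sub, ev_single]
  rw [e, abs_le]
  have a1 := h1 y
  have a2 := h2 y
  rw [ev_neg] at a2
  have := le_max_left C1 C2
  have := le_max_right C1 C2
  constructor <;> linarith

/-- `lam a y ≥ (1 - ε) lam P0 y - C`. -/
theorem lam_ge (hx : IsGen K x) {C0 : ℝ} (h0 : OffDiag lam C0)
    (hdec : ∀ u ∈ Divisor.principal (K := K) (F := F), Decomp lam u) (P0 a : Place K F)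
    {ε : ℝ} (hε : 0 < ε) : ∃ C : ℝ, ∀ y, (1 - ε) * lam P0 y - C ≤ lam a y := by
  have H := lHyp_of_isGen hx
  obtain ⟨C, hC⟩ := abs_ev_sub_le hx h0 hdec P0 (Finsupp.single a (1 : ℤ)) hε
  refine ⟨C, fun y => ?_⟩
  have h1 := abs_le.mp (hC y)
  rw [ev_single, degree_single H] at h1
  simp only [Int.cast_one, one_mul] at h1
  linarith [h1.1]

/-- `lam a y ≤ (1 + ε) lam P0 y + C`. -/
theorem lam_le (hx : IsGen K x) {C0 : ℝ} (h0 : OffDiag lam C0)
    (hdec : ∀ u ∈ Divisor.principal (K := K) (F := F), Decomp lam u) (P0 a : Place K F)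
    {ε : ℝ} (hε : 0 < ε) : ∃ C : ℝ, ∀ y, lam a y ≤ (1 + ε) * lam P0 y + C := by
  have H := lHyp_of_isGen hx
  obtain ⟨C, hC⟩ := abs_ev_sub_le hx h0 hdec P0 (Finsupp.single a (1 : ℤ)) hε
  refine ⟨C, fun y => ?_⟩
  have h1 := abs_le.mp (hC y)
  rw [ev_single, degree_single H] at h1
  simp only [Int.cast_one, one_mul] at h1
  linarith [h1.2]

end Fermat.Agent.MW.PAIR.Bpf4
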