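/-
Programme MW (S17), block PAIR (helper4): **telescoping** — the non-uniform Weil decomposition of
EVERY principal divisor follows from the bounded uniform decomposition `UDle … (4g + 2)`.

Setting of `RR/RRMain`.  For a divisor `Z` of degree `n` choose (Jacobi inversion = Riemann's
inequality) `E ≥ 0` of degree `g` with `T Z E := Z - n P0 - E + g P0` principal.  The set of `Z` for
which some such `T Z E` is `Decomp` contains `0` and the points, and is closed under `+` and `-`
(the correction terms `E1 + E2 - E - g P0`, `2g P0 - E1 - E'`, `a - P0 - E + g P0` are principal of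
size `≤ 4g + 2`), hence is everything.

* `exists_effective` : every divisor of degree `g` is linearly equivalent to an effective one;
* **`decomp_of_principal`** : `UDle lam principal (4g + 2) → ∀ u ∈ principal, Decomp lam u`
  (the hypothesis `hdec` of `Bpf4`).
-/
import Mathlib
import Fermat.Agent.MW.PAIR.Bpf4
import Fermat.Agent.MW.POS.Strata4

set_option autoImplicit false
set_option linter.unusedSectionVars false

open AlgebraicCurve

namespace Fermat.Agent.MW.PAIR.Telescope4

open Fermat.Agent.X0.FF Fermat.Agent.RR.LSpace Fermat.Agent.RR.LHypGen Fermat.Agent.RR.RRMain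
open Fermat.Agent.MW.PAIR.Pairing4 Fermat.Agent.MW.PAIR.PairingB4 Fermat.Agent.MW.PAIR.PicInst4
open Fermat.Agent.MW.PAIR.Compare4 Fermat.Agent.MW.PAIR.Bpf4 Fermat.Agent.MW.POS.Strata4

variable {K F : Type*} [Field K] [Field F] [Algebra K F] [IsAlgClosed K] [CharZero K] {x : F}
  [HasCanonicalDivisor (K := K) (F := F)]

/-- **Jacobi inversion** (Riemann's inequality): a divisor of degree `≥ g` is linearly equivalent
to an effective divisor. -/
theorem exists_effective (hx : IsGen K x) (Z : Divisor K F)
    (hZ : (genus K F : ℤ) ≤ Divisor.degree Z) :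
    ∃ E : Divisor K F, 0 ≤ E ∧ E - Z ∈ Divisor.principal (K := K) (F := F) := by
  have H := lHyp_of_isGen hx
  have h1 := rr hx Z
  have : FiniteDimensional K (riemannRochSpace Z) := finiteDimensional_L hx Z
  have hpos : 0 < Module.finrank K (riemannRochSpace Z) := by
    have : (0 : ℤ) < Module.finrank K (riemannRochSpace Z) := by
      have h2 : (0 : ℤ) ≤ Module.finrank K (riemannRochSpace (W hx - Z)) := Int.natCast_nonneg _
      omega
    exact_mod_cast this
  obtain ⟨f, hf⟩ := Module.finrank_pos_iff_exists_ne_zero.mp hpos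
  have hf' : (f : F) ≠ 0 := fun h => hf (Subtype.ext h)
  refine ⟨Z + divOf H hf', nonneg_add_divOf' H hf' f.2, ?_⟩
  rw [add_sub_cancel_left]
  exact divOf_mem_principal H hf'

/-- the size of an effective divisor is its degree. -/
theorem size_eq_degree (H : LHyp K F) {E : Divisor K F} (hE : 0 ≤ E) :
    (size E : ℤ) = Divisor.degree E := by
  classical
  rw [← cdeg_eq_degree H.deg_eq_one, cdeg_apply, size, Finsupp.sum, Finsupp.sum]
  push_cast
  exact Finset.sum_congr rfl fun v _ => abs_of_nonneg (hE v)

theorem size_single_le (v : Place K F) (n : ℤ) : size (Finsupp.single v n) ≤ n.natAbs := by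
  rw [size]
  by_cases h0 : n = 0
  · rw [h0, Finsupp.single_zero, Finsupp.sum_zero_index]; exact Nat.zero_le _
  · rw [Finsupp.sum_single_index (by simp)]

/-- The normalised divisor `Z - (deg Z) P0 - E + g P0`. -/
noncomputable def T (P0 : Place K F) (Z E : Divisor K F) : Divisor K F :=
  Z - Finsupp.single P0 (Divisor.degree Z) - E + Finsupp.single P0 (genus K F : ℤ)

variable {lam : Place K F → Place K F → ℝ}

/-- The inductive property. -/
def Good (lam : Place K F → Place K F → ℝ) (P0 : Place K F) (Z : Divisor K F) : Prop :=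
  ∃ E : Divisor K F, 0 ≤ E ∧ Divisor.degree E = genus K F ∧
    T P0 Z E ∈ Divisor.principal (K := K) (F := F) ∧ Decomp lam (T P0 Z E)

theorem good_zero (H : LHyp K F) (P0 : Place K F) : Good lam P0 (0 : Divisor K F) := by
  refine ⟨Finsupp.single P0 (genus K F : ℤ), ?_, degree_single H _ _, ?_, ?_⟩
  · intro v
    classical
    rw [Finsupp.single_apply]
    split_ifs
    · exact Int.natCast_nonneg _
    · exact le_rfl
  · have : T P0 (0 : Divisor K F) (Finsupp.single P0 (genus K F : ℤ)) = 0 := by
      rw [T, map_zero, Finsupp.single_zero]; abel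
    rw [this]; exact zero_mem _
  · have : T P0 (0 : Divisor K F) (Finsupp.single P0 (genus K F : ℤ)) = 0 := by
      rw [T, map_zero, Finsupp.single_zero]; abel
    rw [this]; exact Decomp.zero

theorem good_add (hx : IsGen K x) (P0 : Place K F)
    (hUD : UDle lam (Divisor.principal (K := K) (F := F)) (4 * genus K F + 2))
    {Z1 Z2 : Divisor K F} (h1 : Good lam P0 Z1) (h2 : Good lam P0 Z2) :
    Good lam P0 (Z1 + Z2) := by
  have H := lHyp_of_isGen hx
  obtain ⟨E1, hE1, hd1, hp1, hD1⟩ := h1
  obtain ⟨E2, hE2, hd2, hp2, hD2⟩ := h2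
  obtain ⟨E, hE, hpE⟩ := exists_effective hx (E1 + E2 - Finsupp.single P0 (genus K F : ℤ))
    (by rw [map_sub, map_add, hd1, hd2, degree_single H]; omega)
  have hdE : Divisor.degree E = genus K F := by
    obtain ⟨f, hf, hfv⟩ := hpE
    have h0 : Divisor.degree (E - (E1 + E2 - Finsupp.single P0 (genus K F : ℤ))) = 0 := by
      have : E - (E1 + E2 - Finsupp.single P0 (genus K F : ℤ)) = divOf H hf := by
        ext v; rw [hfv v, divOf_apply]
      rw [this, degree_divOf]
    rw [map_sub, map_sub, map_add, hd1, hd2, degree_single H] at h0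
    omega
  have e : T P0 (Z1 + Z2) E = T P0 Z1 E1 + T P0 Z2 E2 -
      (E - (E1 + E2 - Finsupp.single P0 (genus K F : ℤ))) := by
    rw [T, T, T, map_add, Finsupp.single_add]; abel
  have hsz : size (E - (E1 + E2 - Finsupp.single P0 (genus K F : ℤ))) ≤ 4 * genus K F + 2 := by
    have s1 := size_sub_le E (E1 + E2 - Finsupp.single P0 (genus K F : ℤ))
    have s2 := size_sub_le (E1 + E2) (Finsupp.single P0 (genus K F : ℤ))
    have s3 := size_add_le E1 E2
    have s4 := size_single_le P0 (genus K F : ℤ)
    have t1 := size_eq_degree H hE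
    have t2 := size_eq_degree H hE1
    have t3 := size_eq_degree H hE2
    rw [Int.natAbs_natCast] at s4
    omega
  refine ⟨E, hE, hdE, ?_, ?_⟩
  · rw [e]; exact sub_mem (add_mem hp1 hp2) hpE
  · rw [e]; exact (hD1.add hD2).sub (decomp_of_udle hUD hpE hsz)

theorem good_neg (hx : IsGen K x) (P0 : Place K F)
    (hUD : UDle lam (Divisor.principal (K := K) (F := F)) (4 * genus K F + 2))
    {Z : Divisor K F} (h1 : Good lam P0 Z) : Good lam P0 (-Z) := by
  have H := lHyp_of_isGen hx
  obtain ⟨E1, hE1, hd1, hp1, hD1⟩ := h1
  obtain ⟨E, hE, hpE⟩ := exists_effective hx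
    (Finsupp.single P0 (2 * (genus K F : ℤ)) - E1)
    (by rw [map_sub, hd1, degree_single H]; omega)
  have hdE : Divisor.degree E = genus K F := by
    obtain ⟨f, hf, hfv⟩ := hpE
    have h0 : Divisor.degree (E - (Finsupp.single P0 (2 * (genus K F : ℤ)) - E1)) = 0 := by
      have : E - (Finsupp.single P0 (2 * (genus K F : ℤ)) - E1) = divOf H hf := by
        ext v; rw [hfv v, divOf_apply]
      rw [this, degree_divOf]
    rw [map_sub, map_sub, hd1, degree_single H] at h0
    omega
  have e : T P0 (-Z) E = -T P0 Z E1 -
      (E - (Finsupp.single P0 (2 * (genus K F : ℤ)) - E1)) := by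
    rw [T, T, map_neg, Finsupp.single_neg, two_mul, Finsupp.single_add]; abel
  have hsz : size (E - (Finsupp.single P0 (2 * (genus K F : ℤ)) - E1)) ≤ 4 * genus K F + 2 := by
    have s1 := size_sub_le E (Finsupp.single P0 (2 * (genus K F : ℤ)) - E1)
    have s2 := size_sub_le (Finsupp.single P0 (2 * (genus K F : ℤ))) E1
    have s4 := size_single_le P0 (2 * (genus K F : ℤ))
    have t1 := size_eq_degree H hE
    have t2 := size_eq_degree H hE1
    have : (2 * (genus K F : ℤ)).natAbs = 2 * genus K F := by omega
    omega
  refine ⟨E, hE, hdE, ?_, ?_⟩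
  · rw [e]; exact sub_mem (neg_mem hp1) hpE
  · rw [e]; exact hD1.neg.sub (decomp_of_udle hUD hpE hsz)

theorem good_single_one (hx : IsGen K x) (P0 : Place K F)
    (hUD : UDle lam (Divisor.principal (K := K) (F := F)) (4 * genus K F + 2))
    (a : Place K F) : Good lam P0 (Finsupp.single a (1 : ℤ)) := by
  have H := lHyp_of_isGen hx
  obtain ⟨E, hE, hpE⟩ := exists_effective hx
    (Finsupp.single a (1 : ℤ) - Finsupp.single P0 1 + Finsupp.single P0 (genus K F : ℤ))
    (by rw [map_add, map_sub, degree_single H, degree_single H, degree_single H]; omega)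
  have hdE : Divisor.degree E = genus K F := by
    obtain ⟨f, hf, hfv⟩ := hpE
    have h0 : Divisor.degree (E - (Finsupp.single a (1 : ℤ) - Finsupp.single P0 1 +
        Finsupp.single P0 (genus K F : ℤ))) = 0 := by
      have : E - (Finsupp.single a (1 : ℤ) - Finsupp.single P0 1 +
          Finsupp.single P0 (genus K F : ℤ)) = divOf H hf := by
        ext v; rw [hfv v, divOf_apply]
      rw [this, degree_divOf]
    rw [map_sub, map_add, map_sub, degree_single H, degree_single H, degree_single H] at h0
    omega
  have e : T P0 (Finsupp.single a (1 : ℤ)) E =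
      -(E - (Finsupp.single a (1 : ℤ) - Finsupp.single P0 1 +
        Finsupp.single P0 (genus K F : ℤ))) := by
    rw [T, degree_single H]; abel
  have hsz : size (E - (Finsupp.single a (1 : ℤ) - Finsupp.single P0 1 +
      Finsupp.single P0 (genus K F : ℤ))) ≤ 4 * genus K F + 2 := by
    have s1 := size_sub_le E (Finsupp.single a (1 : ℤ) - Finsupp.single P0 1 +
      Finsupp.single P0 (genus K F : ℤ))
    have s2 := size_add_le (Finsupp.single a (1 : ℤ) - Finsupp.single P0 1)
      (Finsupp.single P0 (genus K F : ℤ))
    have s3 := size_sub_le (Finsupp.single a (1 : ℤ)) (Finsupp.single P0 1)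
    have s4 := size_single_le P0 (genus K F : ℤ)
    have s5 := size_single_le a (1 : ℤ)
    have s6 := size_single_le P0 (1 : ℤ)
    have t1 := size_eq_degree H hE
    rw [Int.natAbs_natCast] at s4
    have : (1 : ℤ).natAbs = 1 := rfl
    omega
  refine ⟨E, hE, hdE, ?_, ?_⟩
  · rw [e]; exact neg_mem hpE
  · rw [e]; exact (decomp_of_udle hUD hpE hsz).neg

theorem good_all (hx : IsGen K x) (P0 : Place K F)
    (hUD : UDle lam (Divisor.principal (K := K) (F := F)) (4 * genus K F + 2))
    (Z : Divisor K F) : Good lam P0 Z := by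
  have H := lHyp_of_isGen hx
  induction Z using Finsupp.induction_linear with
  | zero => exact good_zero H P0
  | add a b ha hb => exact good_add hx P0 hUD ha hb
  | single a n =>
    have hnat : ∀ k : ℕ, Good lam P0 (Finsupp.single a (k : ℤ)) := by
      intro k
      induction k with
      | zero => rw [Nat.cast_zero, Finsupp.single_zero]; exact good_zero H P0
      | succ k ih =>
        rw [Nat.cast_succ, Finsupp.single_add]
        exact good_add hx P0 hUD ih (good_single_one hx P0 hUD a)
    obtain ⟨k, rfl | rfl⟩ := n.eq_nat_or_neg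
    · exact hnat k
    · rw [Finsupp.single_neg]
      exact good_neg hx P0 hUD (hnat k)

/-- **Telescoping**: every principal divisor has a Weil decomposition. -/
theorem decomp_of_principal (hx : IsGen K x) (P0 : Place K F)
    (hUD : UDle lam (Divisor.principal (K := K) (F := F)) (4 * genus K F + 2))
    (u : Divisor K F) (hu : u ∈ Divisor.principal (K := K) (F := F)) : Decomp lam u := by
  have H := lHyp_of_isGen hx
  obtain ⟨E, hE, hdE, hp, hD⟩ := good_all hx P0 hUD u
  have hdu : Divisor.degree u = 0 := by
    obtain ⟨f, hf, hfv⟩ := hu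
    have : u = divOf H hf := by ext v; rw [hfv v, divOf_apply]
    rw [this, degree_divOf]
  have e : u = T P0 u E + (E - Finsupp.single P0 (genus K F : ℤ)) := by
    rw [T, hdu, Finsupp.single_zero]; abel
  have hp2 : E - Finsupp.single P0 (genus K F : ℤ) ∈ Divisor.principal (K := K) (F := F) := by
    have : E - Finsupp.single P0 (genus K F : ℤ) = u - T P0 u E := by
      rw [T, hdu, Finsupp.single_zero]; abel
    rw [this]; exact sub_mem hu hp
  have hsz : size (E - Finsupp.single P0 (genus K F : ℤ)) ≤ 4 * genus K F + 2 := by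
    have s1 := size_sub_le E (Finsupp.single P0 (genus K F : ℤ))
    have s4 := size_single_le P0 (genus K F : ℤ)
    have t1 := size_eq_degree H hE
    rw [Int.natAbs_natCast] at s4
    omega
  rw [e]
  exact hD.add (Compare4.decomp_of_udle hUD hp2 hsz)

end Fermat.Agent.MW.PAIR.Telescope4
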